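import Fermat.Agent.MWI.Inst
import Fermat.Agent.MWW.Descent

/-!
# Mordell-Weil for `J_0(N)` from heights on the global data
-/

set_option autoImplicit false
set_option linter.unusedSectionVars false
set_option linter.style.haveILetI false

noncomputable section

namespace Fermat.Agent.MWI

open ModularCurve AlgebraicCurve Fermat.Agent.Curves Fermat.Agent.PicFlat Fermat.Agent.MWH
open Fermat.Agent.MWG SemilinearAut Fermat.Agent.MWW
open scoped Pointwise

/-- existence of a height on the fixed classes -/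
def HeightSt {K F : Type*} [Field K] [IsAlgClosed K] [CharZero K] [Field F] [Algebra K F]
    [IsFunctionField K F] (𝒢 : Glob K F) : Prop :=
  ∃ (h : Pic0 K F → ℝ) (C : ℝ), (∀ x, (∀ σ ∈ 𝒢.G, σ • x = x) → 0 ≤ h x) ∧
    (∀ x y, (∀ σ ∈ 𝒢.G, σ • x = x) → (∀ σ ∈ 𝒢.G, σ • y = y) →
      |h (x + y) + h (x - y) - 2 * (h x + h y)| ≤ C) ∧
    ∀ B : ℝ, {x | (∀ σ ∈ 𝒢.G, σ • x = x) ∧ h x ≤ B}.Finite

theorem fixed_of_JQ {N : ℕ} [NeZero N] (x : JQ N) :
    ∀ σ ∈ (globBar N).G, σ • (x : JZero N) = (x : JZero N) := by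
  rintro _ ⟨τ, rfl⟩
  exact x.2 τ

theorem fg_of_heightSt {N : ℕ} [NeZero N] (hs : HeightSt (globBar N)) :
    AddGroup.FG (JQ N) := by
  obtain ⟨h, C, h0, hpar, hfin⟩ := hs
  have : Northcott (fun x : JQ N => h (x : JZero N)) := ⟨fun B => by
    have h1 := (hfin B).preimage (f := fun x : JQ N => (x : JZero N))
      (Set.injOn_of_injective Subtype.val_injective)
    exact h1.subset fun x hx => ⟨fixed_of_JQ x, hx⟩⟩
  refine fg_of_height (h := fun x : JQ N => h (x : JZero N)) (C := C)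
    (fun x => h0 _ (fixed_of_JQ x)) (fun x y => ?_)
  exact hpar _ _ (fixed_of_JQ x) (fixed_of_JQ y)

end Fermat.Agent.MWI
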