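import Fermat.Agent.MWI.Span
import Fermat.Agent.MWG.Setup
import Fermat.Agent.MWH.AV
import Fermat.Agent.Curves.Modular
import Fermat.Agent.Frob.Qbar

/-!
# The global data of `X_0(N)`
-/

set_option autoImplicit false
set_option linter.unusedSectionVars false
set_option linter.style.haveILetI false

noncomputable section

namespace Fermat.Agent.MWI

open ModularCurve AlgebraicCurve Fermat.Agent.Curves Fermat.Agent.PicFlat Fermat.Agent.MWH
open Fermat.Agent.MWG SemilinearAut
open scoped Pointwise

local notation "Qbar" => AlgebraicClosure ℚ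

/-! ### The place at infinity -/

section Inf

variable (κ : Type*) [Field κ]

theorem order_nonneg_iff (x : LaurentSeries κ) : 0 ≤ x.order ↔ ∀ n < 0, x.coeff n = 0 := by
  constructor
  · intro h n hn
    exact HahnSeries.coeff_eq_zero_of_lt_order (lt_of_lt_of_le hn h)
  · intro h
    by_contra hlt
    push Not at hlt
    have h1 := h _ hlt
    rw [HahnSeries.coeff_order_eq_zero] at h1
    rw [h1, HahnSeries.order_zero] at hlt
    exact lt_irrefl _ hlt

/-- Laurent series without polar part -/
def powV : ValuationSubring (LaurentSeries κ) where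
  carrier := {x | 0 ≤ x.order}
  mul_mem' {x y} hx hy := by
    show 0 ≤ (x * y).order
    rcases eq_or_ne x 0 with rfl | hx0
    · rw [zero_mul, HahnSeries.order_zero]
    rcases eq_or_ne y 0 with rfl | hy0
    · rw [mul_zero, HahnSeries.order_zero]
    rw [HahnSeries.order_mul hx0 hy0]
    exact add_nonneg hx hy
  one_mem' := by
    show 0 ≤ (1 : LaurentSeries κ).order
    rw [HahnSeries.order_one]
  add_mem' {x y} hx hy := by
    show 0 ≤ (x + y).order
    rw [order_nonneg_iff]
    intro n hn
    rw [HahnSeries.coeff_add, (order_nonneg_iff κ x).1 hx n hn, (order_nonneg_iff κ y).1 hy n hn,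
      add_zero]
  zero_mem' := by
    show 0 ≤ (0 : LaurentSeries κ).order
    rw [HahnSeries.order_zero]
  neg_mem' {x} hx := by
    show 0 ≤ (-x).order
    rw [HahnSeries.order_neg]
    exact hx
  mem_or_inv_mem' x := by
    show 0 ≤ x.order ∨ 0 ≤ x⁻¹.order
    rcases eq_or_ne x 0 with rfl | hx0
    · left
      rw [HahnSeries.order_zero]
    have h1 := HahnSeries.order_mul hx0 (inv_ne_zero hx0)
    rw [mul_inv_cancel₀ hx0, HahnSeries.order_one] at h1
    omega

theorem mem_powV {x : LaurentSeries κ} : x ∈ powV κ ↔ ∀ n < 0, x.coeff n = 0 :=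
  order_nonneg_iff κ x

end Inf

variable (N : ℕ) [NeZero N]

theorem exists_cusp : ∃ 𝔭 : Place Qbar (modularFunctionFieldBar N),
    ∀ x : modularFunctionFieldBar N, x ∈ 𝔭.toValuationSubring ↔
      (x : LaurentSeries Qbar) ∈ powV Qbar := by
  obtain ⟨w, hw⟩ := exists_place_of_valuationSubring (k := Qbar)
    ((powV Qbar).comap (algebraMap (modularFunctionFieldBar N) (LaurentSeries Qbar)))
    (fun c => by
      show algebraMap (modularFunctionFieldBar N) (LaurentSeries Qbar)
        (algebraMap Qbar (modularFunctionFieldBar N) c) ∈ powV Qbar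
      have e : algebraMap (modularFunctionFieldBar N) (LaurentSeries Qbar)
        (algebraMap Qbar (modularFunctionFieldBar N) c) = HahnSeries.single 0 c :=
        algebraMap_laurentSeries_eq_single _ c
      rw [e, mem_powV]
      intro n hn
      exact HahnSeries.coeff_single_of_ne hn.ne)
    (fun h => by
      have h1 : (⟨coeffEmb Qbar jq, coeffEmb_mem_laurentBaseChange Qbar
        (modularFunctionField_le_full N (jq_mem N))⟩ : modularFunctionFieldBar N) ∈
        (powV Qbar).comap (algebraMap (modularFunctionFieldBar N) (LaurentSeries Qbar)) := by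
        rw [h]; exact ValuationSubring.mem_top _
      have h2 := (mem_powV Qbar).1 h1 (-1) (by norm_num)
      have h3 : (coeffEmb Qbar jq).coeff (-1) = 0 := h2
      rw [coeffEmb_coeff, coeff_jq_neg_one, map_one] at h3
      exact one_ne_zero h3)
  exact ⟨w, fun x => by rw [hw]; rfl⟩

/-- the cusp `∞` -/
def cuspI : Place Qbar (modularFunctionFieldBar N) := (exists_cusp N).choose

theorem mem_cuspI (x : modularFunctionFieldBar N) : x ∈ (cuspI N).toValuationSubring ↔
    ∀ n < 0, (x : LaurentSeries Qbar).coeff n = 0 := by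
  rw [← mem_powV]
  exact (exists_cusp N).choose_spec x

theorem smul_mem_cuspI (σ : Qbar ≃ₐ[ℚ] Qbar) (x : modularFunctionFieldBar N) :
    arithmeticGalois (modularFunctionFieldFull N) σ • x ∈ (cuspI N).toValuationSubring ↔
      x ∈ (cuspI N).toValuationSubring := by
  rw [mem_cuspI, mem_cuspI]
  refine forall₂_congr fun n _ => ?_
  rw [coe_arithmeticGalois_smul, coeffMap_coeff]
  exact map_eq_zero_iff _ (RingHom.injective _)

theorem fix_cuspI (σ : Qbar ≃ₐ[ℚ] Qbar) :
    arithmeticGalois (modularFunctionFieldFull N) σ • cuspI N = cuspI N := by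
  apply Place.ext
  rw [SemilinearAut.smul_toValuationSubring]
  ext x
  rw [ValuationSubring.mem_pointwise_smul_iff_inv_smul_mem, ← map_inv]
  exact smul_mem_cuspI N σ⁻¹ x

/-- the Galois group -/
def GalS : Subgroup (SemilinearAut Qbar (modularFunctionFieldBar N)) :=
  (arithmeticGalois (modularFunctionFieldFull N)).range

theorem exists_of_mem {σ : SemilinearAut Qbar (modularFunctionFieldBar N)} (h : σ ∈ GalS N) :
    ∃ τ : Qbar ≃ₐ[ℚ] Qbar, arithmeticGalois (modularFunctionFieldFull N) τ = σ := h

theorem fixQbar (a : Qbar) (h : ∀ σ : Qbar ≃ₐ[ℚ] Qbar, σ a = a) : ∃ q : ℚ, (q : Qbar) = a := by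
  have := Fermat.Agent.Frob.isGalois_Qbar
  obtain ⟨q, hq⟩ := (InfiniteGalois.mem_range_algebraMap_iff_fixed (k := ℚ) (K := Qbar) a).2 h
  exact ⟨q, by rw [← hq, eq_ratCast]⟩

/-- **the global data of `X_0(N)`** -/
def globBar : Glob Qbar (modularFunctionFieldBar N) where
  G := GalS N
  span := by
    have h1 := span_Fx (modularFunctionFieldFull N)
    have h2 : {f : modularFunctionFieldBar N | ∀ σ ∈ GalS N, σ • f = f} =
        (Fx (modularFunctionFieldFull N) : Set (modularFunctionFieldBar N)) := by
      ext f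
      constructor
      · intro h τ
        exact h _ ⟨τ, rfl⟩
      · rintro h _ ⟨τ, rfl⟩
        exact h τ
    rw [h2]
    exact h1
  A := avBar
  nv_inf := avBar_inf
  nv_p := avBar_p
  na p := qavBar.na p
  fixQ a h := fixQbar a fun τ => h _ ⟨τ, rfl⟩
  inf := cuspI N
  fixinf := by
    rintro _ ⟨τ, rfl⟩
    exact fix_cuspI N τ
  g := (exists_RR (k := Qbar) (F := modularFunctionFieldBar N)).choose
  c := (exists_RR (k := Qbar) (F := modularFunctionFieldBar N)).choose_spec.choose
  rr := (exists_RR (k := Qbar) (F := modularFunctionFieldBar N)).choose_spec.choose_spec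

end Fermat.Agent.MWI
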