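import Fermat.Prelude.Def_ModularCurve_ArithmeticGalois
import Mathlib.RingTheory.Algebraic.Integral
import Mathlib.FieldTheory.IsAlgClosed.AlgebraicClosure

/-!
# Fixed functions span the base changed function field
-/

set_option autoImplicit false
set_option linter.unusedSectionVars false
set_option linter.style.haveILetI false

noncomputable section

namespace Fermat.Agent.MWI

open ModularCurve AlgebraicCurve

local notation "Qbar" => AlgebraicClosure ℚ

variable (F₀ : IntermediateField ℚ (LaurentSeries ℚ))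

/-- the field of functions fixed by Galois -/
def Fx : Subfield (laurentBaseChange Qbar F₀) where
  carrier := {f | ∀ σ : Qbar ≃ₐ[ℚ] Qbar, arithmeticRingAut F₀ σ f = f}
  mul_mem' ha hb σ := by rw [map_mul, ha σ, hb σ]
  one_mem' σ := map_one _
  add_mem' ha hb σ := by rw [map_add, ha σ, hb σ]
  zero_mem' σ := map_zero _
  neg_mem' ha σ := by rw [map_neg, ha σ]
  inv_mem' a ha σ := by rw [map_inv₀, ha σ]

theorem mem_Fx {f : laurentBaseChange Qbar F₀} :
    f ∈ Fx F₀ ↔ ∀ σ : Qbar ≃ₐ[ℚ] Qbar, arithmeticRingAut F₀ σ f = f := Iff.rfl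

/-- the subalgebra generated by the constants over the fixed functions -/
def Ax : Subalgebra (Fx F₀) (laurentBaseChange Qbar F₀) :=
  Algebra.adjoin (Fx F₀) (Set.range (algebraMap Qbar (laurentBaseChange Qbar F₀)))

theorem isIntegral_of_mem {x : laurentBaseChange Qbar F₀} (hx : x ∈ Ax F₀) :
    IsIntegral (Fx F₀) x := by
  have h1 : Ax F₀ ≤ integralClosure (Fx F₀) (laurentBaseChange Qbar F₀) := by
    refine Algebra.adjoin_le ?_
    rintro _ ⟨k, rfl⟩
    show IsIntegral (Fx F₀) (algebraMap Qbar (laurentBaseChange Qbar F₀) k)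
    obtain ⟨p, hp, hpk⟩ := ((AlgebraicClosure.isAlgebraic ℚ).isAlgebraic k).isIntegral
    refine ⟨p.map (algebraMap ℚ (Fx F₀)), hp.map _, ?_⟩
    rw [Polynomial.eval₂_map]
    have h2 : (algebraMap (Fx F₀) (laurentBaseChange Qbar F₀)).comp (algebraMap ℚ (Fx F₀)) =
        (algebraMap Qbar (laurentBaseChange Qbar F₀)).comp (algebraMap ℚ Qbar) :=
      RingHom.ext fun q => by simp
    rw [h2, ← Polynomial.hom_eval₂]
    refine (congrArg _ ?_).trans (map_zero _)
    rw [← hpk]
    exact congrArg (fun φ : ℚ →+* Qbar => Polynomial.eval₂ φ k p) (Subsingleton.elim _ _)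
  exact h1 hx

theorem inv_mem_Ax {x : laurentBaseChange Qbar F₀} (hx : x ∈ Ax F₀) : x⁻¹ ∈ Ax F₀ :=
  Subalgebra.inv_mem_of_algebraic (Ax F₀) (x := ⟨x, hx⟩) (isIntegral_of_mem F₀ hx).isAlgebraic

/-- `Ax` as a subfield -/
def Sx : Subfield (laurentBaseChange Qbar F₀) :=
  { (Ax F₀).toSubring with inv_mem' := fun _ hx => inv_mem_Ax F₀ hx }

theorem mem_Sx {x : laurentBaseChange Qbar F₀} : x ∈ Sx F₀ ↔ x ∈ Ax F₀ := Iff.rfl

theorem mem_Ax (x : laurentBaseChange Qbar F₀) : x ∈ Ax F₀ := by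
  have h : Subfield.closure
        (Set.range (algebraMap Qbar (LaurentSeries Qbar)) ∪
          (⇑(coeffEmb Qbar) '' (F₀ : Set (LaurentSeries ℚ)))) ≤
      (Sx F₀).map (algebraMap (laurentBaseChange Qbar F₀) (LaurentSeries Qbar)) := by
    rw [Subfield.closure_le]
    rintro _ (⟨a, rfl⟩ | ⟨z, hz, rfl⟩)
    · exact ⟨algebraMap Qbar (laurentBaseChange Qbar F₀) a,
        (mem_Sx F₀).2 (Algebra.subset_adjoin ⟨a, rfl⟩), rfl⟩
    · refine ⟨⟨coeffEmb Qbar z, coeffEmb_mem_laurentBaseChange Qbar hz⟩, ?_, rfl⟩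
      have h1 : (⟨coeffEmb Qbar z, coeffEmb_mem_laurentBaseChange Qbar hz⟩ :
          laurentBaseChange Qbar F₀) ∈ Fx F₀ :=
        fun σ => Subtype.ext (coeffMap_coeffEmb σ z)
      exact (mem_Sx F₀).2 ((Ax F₀).algebraMap_mem ⟨_, h1⟩)
  obtain ⟨y, hy, hyx⟩ := h (mem_laurentBaseChange_iff.1 x.2)
  have : y = x := Subtype.ext hyx
  rw [← this]
  exact (mem_Sx F₀).1 hy

/-- **the fixed functions span** -/
theorem span_Fx : Submodule.span Qbar (Fx F₀ : Set (laurentBaseChange Qbar F₀)) = ⊤ := by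
  have h1 : Submodule.span Qbar (Fx F₀ : Set (laurentBaseChange Qbar F₀)) =
      Subalgebra.toSubmodule (Algebra.adjoin Qbar (Fx F₀ : Set (laurentBaseChange Qbar F₀))) := by
    rw [Algebra.adjoin_eq_span]
    congr 1
    exact (Submonoid.closure_eq (Fx F₀).toSubmonoid).symm ▸ rfl
  rw [h1, eq_top_iff]
  intro x _
  have hx := mem_Ax F₀ x
  show x ∈ Algebra.adjoin Qbar (Fx F₀ : Set (laurentBaseChange Qbar F₀))
  induction hx using Algebra.adjoin_induction with
  | mem y hy =>
    obtain ⟨k, rfl⟩ := hy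
    exact Subalgebra.algebraMap_mem _ k
  | algebraMap f => exact Algebra.subset_adjoin f.2
  | add x y _ _ hx hy => exact add_mem (hx trivial) (hy trivial)
  | mul x y _ _ hx hy => exact mul_mem (hx trivial) (hy trivial)

end Fermat.Agent.MWI
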